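import Mathlib
import Fermat.Prelude.Def_CuspForm_IntegralLattice
import Fermat.Prelude.Def_CuspForm_HeckeAlgebra
import Fermat.Prelude.Def_CuspForm_IntegralStructure
import Fermat.Prelude.Thm_CuspForm_intLattice_fg
import Fermat.Prelude.Thm_CuspForm_mem_intLattice_of_mem_heckeAlgebra
import Fermat.Prelude.Thm_ModularFormClass_qCoeff_heckeT
import Fermat.Prelude.Thm_ModularFormClass_qCoeff_heckeU
import Fermat.Prelude.Thm_CongruenceSubgroup_one_mem_strictPeriods_Gamma0

set_option autoImplicit false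

namespace Fermat.Agent.S49

open ModularFormClass CongruenceSubgroup UpperHalfPlane

variable {N : ℕ}

/-- The `n`-th `q`-coefficient as a linear functional. -/
noncomputable def qCoeffLin (N : ℕ) (n : ℕ) : CuspForm (Gamma0 N) 2 →ₗ[ℂ] ℂ where
  toFun f := qCoeff f n
  map_add' f g := by
    unfold qCoeff
    rw [FunLike.coe_add, ModularForm.qExpansion_add one_pos (one_mem_strictPeriods_Gamma0 N) f g,
      map_add]
  map_smul' c f := by
    unfold qCoeff
    rw [FunLike.coe_smul,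
      ModularForm.qExpansion_smul one_pos (one_mem_strictPeriods_Gamma0 N) c f]
    simp

@[simp] theorem qCoeffLin_apply (n : ℕ) (f : CuspForm (Gamma0 N) 2) :
    qCoeffLin N n f = qCoeff f n := rfl

theorem qCoeff_zero_eq (f : CuspForm (Gamma0 N) 2) : qCoeff f 0 = 0 :=
  CuspFormClass.qExpansion_coeff_zero f one_pos (one_mem_strictPeriods_Gamma0 N)

theorem eq_zero_of_qCoeff (f : CuspForm (Gamma0 N) 2) (h : ∀ n, qCoeff f n = 0) : f = 0 := by
  have hΓ := one_mem_strictPeriods_Gamma0 N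
  have : Fact (IsCusp OnePoint.infty
      (Subgroup.map (Matrix.SpecialLinearGroup.mapGL ℝ) (Gamma0 N))) :=
    ⟨Subgroup.isCusp_of_mem_strictPeriods one_pos hΓ⟩
  have h1 : qExpansion 1 f = 0 := by
    ext n
    simpa [qCoeff] using h n
  have h2 := (UpperHalfPlane.qExpansion_eq_zero_iff one_pos
    (SlashInvariantFormClass.periodic_comp_ofComplex f hΓ) (ModularFormClass.holo f)
    (ModularFormClass.bdd_at_infty f)).mp h1
  exact DFunLike.coe_injective h2

theorem qCoeff_heckeTLin {ℓ : ℕ} (hℓ : ℓ.Prime) (hℓN : ¬ ℓ ∣ N) (f : CuspForm (Gamma0 N) 2)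
    (n : ℕ) : qCoeff (CuspForm.heckeTLin 2 hℓ hℓN f) n =
      qCoeff f (ℓ * n) + (ℓ : ℂ) * (if ℓ ∣ n then qCoeff f (n / ℓ) else 0) := by
  rw [CuspForm.coe_heckeTLin_apply,
    ModularFormClass.qCoeff_heckeT f (one_mem_strictPeriods_Gamma0 N) hℓ.ne_zero,
    ModularForm.coeffHeckeT_apply, mul_comm n ℓ]
  split_ifs <;> simp

theorem qCoeff_heckeULin [NeZero N] {ℓ : ℕ} (hℓ : ℓ.Prime) (hℓN : ℓ ∣ N)
    (f : CuspForm (Gamma0 N) 2) (n : ℕ) :
    qCoeff (CuspForm.heckeULin 2 hℓN f) n = qCoeff f (ℓ * n) := by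
  rw [CuspForm.coe_heckeULin_apply,
    ModularFormClass.qCoeff_heckeU f (one_mem_strictPeriods_Gamma0 N) hℓ.ne_zero,
    ModularForm.coeffHeckeU_apply, mul_comm n ℓ]

theorem mem_intLattice_iff (f : CuspForm (Gamma0 N) 2) :
    f ∈ CuspForm.intLattice N 2 ↔ ∀ n : ℕ, ∃ m : ℤ, qCoeff f n = (m : ℂ) := by
  constructor
  · intro hf
    unfold CuspForm.intLattice at hf
    induction hf using Submodule.span_induction with
    | mem x hx => exact hx
    | zero => intro n; exact ⟨0, by rw [← qCoeffLin_apply, map_zero]; simp⟩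
    | add x y _ _ hx hy =>
      intro n
      obtain ⟨a, ha⟩ := hx n
      obtain ⟨b, hb⟩ := hy n
      exact ⟨a + b, by rw [← qCoeffLin_apply, map_add, qCoeffLin_apply, qCoeffLin_apply, ha, hb]; simp⟩
    | smul c x _ hx =>
      intro n
      obtain ⟨a, ha⟩ := hx n
      exact ⟨c * a, by rw [← qCoeffLin_apply, map_zsmul, qCoeffLin_apply, ha]; simp⟩
  · intro h
    exact Submodule.subset_span h

theorem qIntegralSet_eq (N : ℕ) :
    CuspForm.qIntegralSet N = (CuspForm.intLattice N 2 : Set (CuspForm (Gamma0 N) 2)) := by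
  ext f
  rw [SetLike.mem_coe, mem_intLattice_iff]
  unfold CuspForm.qIntegralSet
  simp only [Set.mem_ofPred_eq, Subring.mem_bot]
  exact forall_congr' fun n => ⟨fun ⟨m, hm⟩ => ⟨m, hm.symm⟩, fun ⟨m, hm⟩ => ⟨m, hm.symm⟩⟩

/-- A form all of whose coefficients are divisible by `3` is three times a lattice form. -/
theorem exists_eq_three_smul (F : CuspForm (Gamma0 N) 2)
    (h : ∀ n : ℕ, ∃ m : ℤ, qCoeff F n = 3 * (m : ℂ)) :
    ∃ G ∈ CuspForm.intLattice N 2, F = (3 : ℤ) • G := by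
  refine ⟨(3 : ℂ)⁻¹ • F, ?_, ?_⟩
  · rw [mem_intLattice_iff]
    intro n
    obtain ⟨m, hm⟩ := h n
    refine ⟨m, ?_⟩
    rw [← qCoeffLin_apply, map_smul, qCoeffLin_apply, hm]
    simp
  · rw [← Int.cast_smul_eq_zsmul ℂ, smul_smul]
    simp

end Fermat.Agent.S49
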