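import Mathlib

set_option autoImplicit false

namespace Fermat.Agent.S49

open Module

variable {K : Type*} [Field K] [IsAlgClosed K] {V : Type*} [AddCommGroup V] [Module K V]
  [FiniteDimensional K V]

/-- A commutative ring acting linearly on a finite-dimensional space over an algebraically closed
field has a common eigenvector in every nonzero invariant subspace. -/
theorem exists_common_eigenvector {R : Type*} [CommRing R] (φ : R →+* Module.End K V) :
    ∀ (n : ℕ) (E : Submodule K V), finrank K E ≤ n → E ≠ ⊥ → (∀ r, ∀ v ∈ E, φ r v ∈ E) →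
      ∃ g ∈ E, g ≠ 0 ∧ ∀ r, ∃ c : K, φ r g = c • g := by
  intro n
  induction n with
  | zero =>
    intro E hE hne _
    exact absurd (Submodule.finrank_eq_zero.mp (Nat.le_zero.mp hE)) hne
  | succ n ih =>
    intro E hE hne hinv
    by_cases hsc : ∀ r, ∃ c : K, ∀ v ∈ E, φ r v = c • v
    · obtain ⟨g, hgE, hg0⟩ := Submodule.exists_mem_ne_zero_of_ne_bot hne
      exact ⟨g, hgE, hg0, fun r => (hsc r).imp fun c hc => hc g hgE⟩
    · push Not at hsc
      obtain ⟨r, hr⟩ := hsc
      have : Nontrivial E := Submodule.nontrivial_iff_ne_bot.mpr hne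
      obtain ⟨μ, hμ⟩ := Module.End.exists_eigenvalue ((φ r).restrict (hinv r))
      obtain ⟨w, hw⟩ := hμ.exists_hasEigenvector
      have hw1 : φ r (w : V) = μ • (w : V) := by
        have := hw.apply_eq_smul
        exact congrArg Subtype.val this
      have hw0 : (w : V) ≠ 0 := fun h => hw.2 (Subtype.ext h)
      obtain ⟨v, hvE, hv⟩ := hr μ
      have hlt : E ⊓ Module.End.eigenspace (φ r) μ < E := by
        refine lt_of_le_of_ne inf_le_left fun heq => hv ?_
        have : v ∈ E ⊓ Module.End.eigenspace (φ r) μ := by rw [heq]; exact hvE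
        exact Module.End.mem_eigenspace_iff.mp this.2
      have hfr : finrank K ↥(E ⊓ Module.End.eigenspace (φ r) μ) ≤ n := by
        have := Submodule.finrank_lt_finrank_of_lt hlt
        omega
      have hne' : E ⊓ Module.End.eigenspace (φ r) μ ≠ ⊥ := by
        intro h
        have : (w : V) ∈ E ⊓ Module.End.eigenspace (φ r) μ :=
          ⟨w.2, Module.End.mem_eigenspace_iff.mpr hw1⟩
        rw [h] at this
        exact hw0 ((Submodule.mem_bot K).mp this)
      obtain ⟨g, hg, hg0, hgc⟩ := ih _ hfr hne' (by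
        intro s u hu
        refine ⟨hinv s u hu.1, Module.End.mem_eigenspace_iff.mpr ?_⟩
        have hu2 := Module.End.mem_eigenspace_iff.mp hu.2
        calc φ r (φ s u) = (φ r * φ s) u := rfl
          _ = (φ s * φ r) u := by rw [← map_mul, ← map_mul, mul_comm]
          _ = φ s (φ r u) := rfl
          _ = μ • φ s u := by rw [hu2, map_smul])
      exact ⟨g, hg.1, hg0, hgc⟩

omit [IsAlgClosed K] [FiniteDimensional K V] in
/-- The eigenvalues of a common eigenvector form a ring homomorphism. -/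
theorem exists_ringHom_of_eigenvector {R : Type*} [CommRing R] (φ : R →+* Module.End K V)
    (g : V) (hg : g ≠ 0) (h : ∀ r, ∃ c : K, φ r g = c • g) :
    ∃ χ : R →+* K, ∀ r, φ r g = χ r • g := by
  choose c hc using h
  have inj : ∀ x y : K, x • g = y • g → x = y := fun x y hxy => smul_left_injective K hg hxy
  refine ⟨{ toFun := c, map_one' := ?_, map_mul' := ?_, map_zero' := ?_, map_add' := ?_ }, hc⟩
  · apply inj
    rw [← hc, map_one, one_smul]; rfl
  · intro x y
    apply inj
    rw [← hc, map_mul, Module.End.mul_apply, hc y, map_smul, hc x, smul_smul, mul_comm]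
  · apply inj
    rw [← hc, map_zero, zero_smul]; rfl
  · intro x y
    apply inj
    rw [← hc, map_add, LinearMap.add_apply, hc x, hc y, add_smul]

/-- Key lemma: a prime ideal containing the annihilator of the module contains the kernel of an
eigen-character. -/
theorem exists_eigen_character_aux {R : Type*} [CommRing R] (φ : R →+* Module.End K V)
    (𝔪 : Ideal R) [h𝔪 : 𝔪.IsPrime] :
    ∀ (n : ℕ) (E : Submodule K V), finrank K E ≤ n → (∀ r, ∀ v ∈ E, φ r v ∈ E) →
      (∀ r, (∀ v ∈ E, φ r v = 0) → r ∈ 𝔪) →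
      ∃ (χ : R →+* K) (g : V), g ∈ E ∧ g ≠ 0 ∧ (∀ r, φ r g = χ r • g) ∧ RingHom.ker χ ≤ 𝔪 := by
  intro n
  induction n with
  | zero =>
    intro E hE _ hann
    have hbot : E = ⊥ := Submodule.finrank_eq_zero.mp (Nat.le_zero.mp hE)
    exfalso
    apply h𝔪.ne_top
    rw [Ideal.eq_top_iff_one]
    apply hann
    intro v hv
    rw [hbot, Submodule.mem_bot] at hv
    rw [hv, map_zero]
  | succ n ih =>
    intro E hE hinv hann
    have hne : E ≠ ⊥ := by
      intro hbot
      apply h𝔪.ne_top
      rw [Ideal.eq_top_iff_one]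
      apply hann
      intro v hv
      rw [hbot, Submodule.mem_bot] at hv
      rw [hv, map_zero]
    obtain ⟨g₁, hg₁E, hg₁0, hg₁⟩ := exists_common_eigenvector φ (n + 1) E hE hne hinv
    obtain ⟨χ₁, hχ₁⟩ := exists_ringHom_of_eigenvector φ g₁ hg₁0 hg₁
    by_cases hker : RingHom.ker χ₁ ≤ 𝔪
    · exact ⟨χ₁, g₁, hg₁E, hg₁0, hχ₁, hker⟩
    · obtain ⟨r₁, hr₁ker, hr₁⟩ := SetLike.not_le_iff_exists.mp hker
      have hr₁g : φ r₁ g₁ = 0 := by
        rw [hχ₁, (RingHom.mem_ker).mp hr₁ker, zero_smul]
      have hfr : finrank K ↥(E.map (φ r₁)) ≤ n := by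
        have h1 := LinearMap.finrank_range_add_finrank_ker ((φ r₁).domRestrict E)
        rw [LinearMap.range_domRestrict] at h1
        have h2 : 0 < finrank K ↥(LinearMap.ker ((φ r₁).domRestrict E)) := by
          rw [Module.finrank_pos_iff]
          refine ⟨⟨⟨⟨g₁, hg₁E⟩, ?_⟩, 0, ?_⟩⟩
          · rw [LinearMap.mem_ker, LinearMap.domRestrict_apply]; exact hr₁g
          · intro h
            exact hg₁0 (congrArg (fun x => ((x : ↥(LinearMap.ker ((φ r₁).domRestrict E))) : E).1) h)
        omega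
      obtain ⟨χ, g, hgE, hg0, hχ, hk⟩ := ih (E.map (φ r₁)) hfr (by
        rintro s _ ⟨u, hu, rfl⟩
        refine ⟨φ s u, hinv s u hu, ?_⟩
        calc φ r₁ (φ s u) = (φ r₁ * φ s) u := rfl
          _ = (φ s * φ r₁) u := by rw [← map_mul, ← map_mul, mul_comm]
          _ = φ s (φ r₁ u) := rfl) (by
        intro s hs
        have : s * r₁ ∈ 𝔪 := by
          apply hann
          intro v hv
          rw [map_mul, Module.End.mul_apply]
          exact hs _ ⟨v, hv, rfl⟩
        exact (h𝔪.mem_or_mem this).resolve_right hr₁)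
      obtain ⟨u, hu, rfl⟩ := hgE
      exact ⟨χ, _, hinv r₁ u hu, hg0, hχ, hk⟩

theorem exists_eigen_character {R : Type*} [CommRing R] (φ : R →+* Module.End K V)
    (𝔪 : Ideal R) [𝔪.IsPrime] (hann : ∀ r, φ r = 0 → r ∈ 𝔪) :
    ∃ (χ : R →+* K) (g : V), g ≠ 0 ∧ (∀ r, φ r g = χ r • g) ∧ RingHom.ker χ ≤ 𝔪 := by
  obtain ⟨χ, g, -, hg0, hχ, hk⟩ := exists_eigen_character_aux φ 𝔪 (finrank K (⊤ : Submodule K V)) ⊤
    le_rfl (fun _ _ _ => Submodule.mem_top) (fun r hr => hann r (LinearMap.ext fun v => hr v trivial))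
  exact ⟨χ, g, hg0, hχ, hk⟩

end Fermat.Agent.S49
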