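import Mathlib
import Fermat.Prelude.Def_FormalHecke_Eigensystem

set_option autoImplicit false

namespace Fermat.Agent.S49

variable {R : Type*} [CommRing R]

/-- The three-term recursion at prime powers, read off from the eigensystem relation. -/
theorem eigensystem_prime_pow {e a : ℕ → R} (h : FormalHecke.IsEigensystem e a)
    (ℓ r : ℕ) (hℓ : ℓ.Prime) :
    a (ℓ ^ (r + 2)) = a ℓ * a (ℓ ^ (r + 1)) - e ℓ * a (ℓ ^ r) := by
  have h2 := h.2 ℓ hℓ (ℓ ^ (r + 1))
  have hdvd : ℓ ∣ ℓ ^ (r + 1) := dvd_pow_self ℓ (Nat.succ_ne_zero r)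
  rw [if_pos hdvd] at h2
  have hdiv : ℓ ^ (r + 1) / ℓ = ℓ ^ r := by
    rw [pow_succ, Nat.mul_div_cancel _ hℓ.pos]
  rw [hdiv] at h2
  have hmul : ℓ * ℓ ^ (r + 1) = ℓ ^ (r + 2) := by ring
  rw [hmul] at h2
  rw [← h2]; ring

/-- Splitting off a prime power from a coprime cofactor. -/
theorem eigensystem_prime_pow_mul {e a : ℕ → R} (h : FormalHecke.IsEigensystem e a)
    (ℓ : ℕ) (hℓ : ℓ.Prime) (t : ℕ) (ht : ¬ ℓ ∣ t) :
    ∀ k : ℕ, a (ℓ ^ k * t) = a (ℓ ^ k) * a t := by
  have key : ∀ k : ℕ, a (ℓ ^ k * t) = a (ℓ ^ k) * a t ∧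
      a (ℓ ^ (k + 1) * t) = a (ℓ ^ (k + 1)) * a t := by
    intro k
    induction k with
    | zero =>
      refine ⟨by simp [h.1], ?_⟩
      have h2 := h.2 ℓ hℓ t
      rw [if_neg ht, mul_zero, add_zero] at h2
      simpa using h2
    | succ k ih =>
      refine ⟨ih.2, ?_⟩
      have h2 := h.2 ℓ hℓ (ℓ ^ (k + 1) * t)
      have hdvd : ℓ ∣ ℓ ^ (k + 1) * t := Dvd.dvd.mul_right (dvd_pow_self ℓ (Nat.succ_ne_zero k)) t
      rw [if_pos hdvd] at h2
      have hdiv : ℓ ^ (k + 1) * t / ℓ = ℓ ^ k * t := by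
        rw [pow_succ, mul_assoc, mul_comm ℓ t, ← mul_assoc, Nat.mul_div_cancel _ hℓ.pos]
      rw [hdiv] at h2
      have hmul : ℓ * (ℓ ^ (k + 1) * t) = ℓ ^ (k + 1 + 1) * t := by ring
      rw [hmul, ih.1, ih.2] at h2
      have h3 := eigensystem_prime_pow h ℓ k hℓ
      rw [h3]
      linear_combination h2
  exact fun k => (key k).1

theorem isRecursive_of_isEigensystem {e a : ℕ → R} (h : FormalHecke.IsEigensystem e a) :
    FormalHecke.IsRecursive e a := by
  refine ⟨h.1, ?_, fun ℓ r hℓ => eigensystem_prime_pow h ℓ r hℓ⟩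
  intro m
  induction m using Nat.recOnPrimeCoprime with
  | zero =>
    intro n hn
    have : n = 1 := by simpa using hn
    subst this
    simp [h.1]
  | prime_pow p k hp =>
    intro n hn
    rcases Nat.eq_zero_or_pos k with rfl | hk
    · simp [h.1]
    · have hpn : ¬ p ∣ n := by
        intro hdvd
        have h1 : p ∣ Nat.gcd (p ^ k) n := Nat.dvd_gcd (dvd_pow_self p hk.ne') hdvd
        rw [hn] at h1
        exact hp.one_lt.ne' (Nat.dvd_one.mp h1)
      exact eigensystem_prime_pow_mul h p hp n hpn k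
  | coprime x y _ _ hxy hx hy =>
    intro n hn
    have hxn : x.Coprime n := Nat.Coprime.coprime_mul_right hn
    have hyn : y.Coprime n := Nat.Coprime.coprime_mul_left hn
    rw [mul_assoc, hx (y * n) (Nat.Coprime.mul_right hxy hxn), hy n hyn, hx y hxy, mul_assoc]

theorem eq_zero_of_isEigen_of_one_eq_zero {e c a : ℕ → R} (h1 : a 1 = 0)
    (h : ∀ ℓ : ℕ, ℓ.Prime → ∀ n : ℕ,
      a (ℓ * n) + e ℓ * (if ℓ ∣ n then a (n / ℓ) else 0) = c ℓ * a n) :
    ∀ n : ℕ, n ≠ 0 → a n = 0 := by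
  intro n
  induction n using Nat.strong_induction_on with
  | _ n ih =>
    intro hn
    rcases eq_or_ne n 1 with rfl | hn1
    · exact h1
    · have hℓ : (Nat.minFac n).Prime := Nat.minFac_prime hn1
      obtain ⟨m, hm⟩ := Nat.minFac_dvd n
      set ℓ := Nat.minFac n with hℓdef
      have hm0 : m ≠ 0 := by
        rintro rfl
        exact hn (by simpa using hm)
      have hmlt : m < n := by
        rw [hm]
        exact lt_mul_of_one_lt_left (Nat.pos_of_ne_zero hm0) hℓ.one_lt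
      have h2 := h ℓ hℓ m
      rw [← hm, ih m hmlt hm0, mul_zero] at h2
      by_cases hd : ℓ ∣ m
      · rw [if_pos hd] at h2
        have hq0 : m / ℓ ≠ 0 := by
          intro h0
          rcases (Nat.div_eq_zero_iff).mp h0 with h0 | h0
          · exact hℓ.ne_zero h0
          · exact absurd (Nat.le_of_dvd (Nat.pos_of_ne_zero hm0) hd) (not_le.mpr h0)
        have hqlt : m / ℓ < n := lt_of_le_of_lt (Nat.div_le_self m ℓ) hmlt
        rw [ih (m / ℓ) hqlt hq0, mul_zero, add_zero] at h2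
        exact h2
      · rw [if_neg hd, mul_zero, add_zero] at h2
        exact h2

end Fermat.Agent.S49
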