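import Mathlib
import Fermat.Agent.S49.Eigen

set_option autoImplicit false

namespace Fermat.Agent.S49

open Module

/-- An endomorphism of a complex vector space preserving a finitely generated spanning lattice is
integral over `ℤ`. -/
theorem isIntegral_of_mapsTo_lattice {V : Type*} [AddCommGroup V] [Module ℂ V]
    (L : Submodule ℤ V) (hfg : L.FG) (hspan : Submodule.span ℂ (L : Set V) = ⊤)
    (x : Module.End ℂ V) (hx : ∀ v ∈ L, x v ∈ L) : IsIntegral ℤ x := by
  let A' : Subalgebra ℤ (Module.End ℂ V) :=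
    { carrier := { x | ∀ n ∈ L, x n ∈ L }
      mul_mem' := fun {a b} ha hb n hn => ha _ (hb _ hn)
      one_mem' := fun n hn => hn
      add_mem' := fun {a b} ha hb n hn => L.add_mem (ha _ hn) (hb _ hn)
      zero_mem' := fun n _hn => L.zero_mem
      algebraMap_mem' := fun r n hn => by
        have : (algebraMap ℤ (Module.End ℂ V) r) n = r • n := by
          rw [Algebra.algebraMap_eq_smul_one]; rfl
        rw [this]
        exact L.smul_mem r hn }
  let f : A' →ₐ[ℤ] Module.End ℤ L :=
    AlgHom.ofLinearMap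
      { toFun := fun x => (x.1.restrictScalars ℤ).restrict x.prop
        map_add' := by intro x y; ext; rfl
        map_smul' := by intro r s; ext; rfl }
      (by ext; rfl)
      (by intro x y; ext; rfl)
  have hinj : Function.Injective f := by
    change Function.Injective f.toLinearMap
    rw [← LinearMap.ker_eq_bot, eq_bot_iff]
    intro s hs
    have h0 : ∀ v ∈ L, s.1 v = 0 := fun v hv =>
      congr_arg Subtype.val (LinearMap.congr_fun hs ⟨v, hv⟩)
    have h1 : Submodule.span ℂ (L : Set V) ≤ LinearMap.ker s.1 :=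
      Submodule.span_le.mpr fun v hv => h0 v hv
    rw [hspan] at h1
    refine Subtype.ext (LinearMap.ext fun v => ?_)
    exact h1 (Submodule.mem_top (x := v))
  change IsIntegral ℤ (A'.val ⟨x, hx⟩)
  rw [isIntegral_algHom_iff A'.val Subtype.val_injective, ← isIntegral_algHom_iff f hinj]
  have : Module.Finite ℤ L := by rwa [Module.Finite.iff_fg]
  apply Algebra.IsIntegral.isIntegral

theorem finiteDimensional_of_lattice {V : Type*} [AddCommGroup V] [Module ℂ V]
    (L : Submodule ℤ V) (hfg : L.FG) (hspan : Submodule.span ℂ (L : Set V) = ⊤) :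
    FiniteDimensional ℂ V := by
  obtain ⟨s, hs⟩ := hfg
  refine ⟨⟨s, ?_⟩⟩
  rw [eq_top_iff, ← hspan, Submodule.span_le, ← hs]
  intro v hv
  exact Submodule.span_subset_span ℤ ℂ _ hv

/-- Abstract Deligne–Serre lifting. -/
theorem exists_lift_character {V : Type*} [AddCommGroup V] [Module ℂ V]
    (L : Submodule ℤ V) (hfg : L.FG) (hspan : Submodule.span ℂ (L : Set V) = ⊤)
    {R : Type*} [CommRing R] (φ : R →+* Module.End ℂ V) (hφ : Function.Injective φ)
    (hL : ∀ r, ∀ v ∈ L, φ r v ∈ L) (𝔪 : Ideal R) [h𝔪 : 𝔪.IsMaximal] :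
    ∃ (χ : R →+* integralClosure ℤ ℂ) (g : V) (𝔪' : Ideal (integralClosure ℤ ℂ)),
      g ≠ 0 ∧ (∀ r, φ r g = (χ r : ℂ) • g) ∧ 𝔪'.IsMaximal ∧ 𝔪'.comap χ = 𝔪 := by
  have hfd : FiniteDimensional ℂ V := finiteDimensional_of_lattice L hfg hspan
  obtain ⟨χ₀, g, hg0, hχ₀, hker⟩ := exists_eigen_character φ 𝔪 (fun r hr => by
    have : r = 0 := hφ (by rw [hr, map_zero])
    rw [this]; exact 𝔪.zero_mem)
  have hint : ∀ r, IsIntegral ℤ (χ₀ r) := by
    intro r
    have h1 : IsIntegral ℤ (φ r) := isIntegral_of_mapsTo_lattice L hfg hspan (φ r) (hL r)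
    have h2 : IsIntegral ℤ r := (isIntegral_algHom_iff φ.toIntAlgHom hφ).mp h1
    exact map_isIntegral_int χ₀ h2
  let χ : R →+* integralClosure ℤ ℂ := χ₀.codRestrict (integralClosure ℤ ℂ) hint
  let _ : Algebra R (integralClosure ℤ ℂ) := χ.toAlgebra
  have hAI : Algebra.IsIntegral R (integralClosure ℤ ℂ) := by
    refine ⟨fun x => ?_⟩
    have hx : IsIntegral ℤ x := Algebra.IsIntegral.isIntegral x
    exact hx.tower_top
  have hker' : RingHom.ker (algebraMap R (integralClosure ℤ ℂ)) ≤ 𝔪 := by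
    intro r hr
    apply hker
    rw [RingHom.mem_ker] at hr ⊢
    exact congrArg Subtype.val hr
  obtain ⟨𝔪', hmax, hcomap⟩ := Ideal.exists_ideal_over_maximal_of_isIntegral 𝔪 hker'
  exact ⟨χ, g, 𝔪', hg0, hχ₀, hmax, hcomap⟩

end Fermat.Agent.S49
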