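import Mathlib
import Fermat.Agent.S49.QCoeff

set_option autoImplicit false

namespace Fermat.Agent.S49

open ModularFormClass CongruenceSubgroup EisensteinWeightOne

theorem bridgeProduct_coeff_congr (a : ℕ → ℤ) (n : ℕ) :
    (3 : ℤ) ∣ (bridgeProduct a).coeff n - a n := by
  have h : e1Chi3In ℤ = 1 + PowerSeries.C 3 *
      PowerSeries.mk (fun n => if n = 0 then 0 else 2 * sigmaChi n) := by
    ext k
    simp only [e1Chi3In, e1Chi3, PowerSeries.coeff_map, PowerSeries.coeff_mk, map_add,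
      PowerSeries.coeff_one, PowerSeries.coeff_C_mul, Int.coe_castRingHom, Int.cast_id]
    split_ifs <;> ring
  unfold bridgeProduct
  rw [h, mul_add, mul_one, map_add, PowerSeries.coeff_mk, add_sub_cancel_left, mul_left_comm,
    PowerSeries.coeff_C_mul]
  exact Dvd.intro _ rfl

theorem three_dvd_sub_chi (n : ℕ) : (3 : ℤ) ∣ (n : ℤ) - chiNegThree n := by
  unfold chiNegThree
  have := Nat.mod_lt n (by norm_num : 0 < 3)
  split_ifs <;> omega

variable {N : ℕ} [NeZero N]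

/-- The ideal of Hecke operators sending `f₀` into three times the lattice. -/
def congrIdeal (f₀ : CuspForm (Gamma0 N) 2) : Ideal (CuspForm.heckeAlgebra N 2 ∅) where
  carrier := {t | ∃ G ∈ CuspForm.intLattice N 2, t.1 f₀ = (3 : ℤ) • G}
  add_mem' := by
    rintro s t ⟨G, hG, hs⟩ ⟨H, hH, ht⟩
    exact ⟨G + H, add_mem hG hH, by rw [smul_add, ← hs, ← ht]; rfl⟩
  zero_mem' := ⟨0, zero_mem _, by simp⟩
  smul_mem' := by
    rintro s t ⟨G, hG, ht⟩
    refine ⟨s.1 G, CuspForm.mem_intLattice_of_mem_heckeAlgebra (by norm_num) s.2 hG, ?_⟩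
    rw [smul_eq_mul]
    change s.1 (t.1 f₀) = _
    rw [ht, map_zsmul]

theorem mem_congrIdeal_iff (f₀ : CuspForm (Gamma0 N) 2) (t : CuspForm.heckeAlgebra N 2 ∅) :
    t ∈ congrIdeal f₀ ↔ ∀ n : ℕ, ∃ m : ℤ, qCoeff (t.1 f₀) n = 3 * (m : ℂ) := by
  constructor
  · rintro ⟨G, hG, ht⟩ n
    obtain ⟨m, hm⟩ := (mem_intLattice_iff G).mp hG n
    refine ⟨m, ?_⟩
    rw [ht, ← qCoeffLin_apply, map_zsmul, qCoeffLin_apply, hm]
    simp
  · intro h
    exact exists_eq_three_smul _ h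

end Fermat.Agent.S49
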