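import Mathlib
import Fermat.Prelude.Def_FormalHecke_Eigensystem
import Fermat.Agent.S49.Ideal

set_option autoImplicit false

namespace Fermat.Agent.S49

open ModularFormClass CongruenceSubgroup EisensteinWeightOne

variable {N : ℕ} [NeZero N]

section

variable {a : ℕ → ℤ}
  (heig : FormalHecke.IsEigensystem
      (fun ℓ => if ℓ ∣ N then 0 else ((chiNegThree ℓ : ℤ) : ℤ)) a)
  {f₀ : CuspForm (Gamma0 N) 2} {af : ℕ → ℤ} (haf : ∀ n, (af n : ℂ) = qCoeff f₀ n)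
  (hcong : ∀ n, (3 : ℤ) ∣ af n - a n)

include heig haf hcong

theorem T_sub_mem_congrIdeal {ℓ : ℕ} (hℓ : ℓ.Prime) (hℓN : ¬ ℓ ∣ N) :
    (CuspForm.heckeAlgebra.T hℓ hℓN (Set.notMem_empty ℓ) : CuspForm.heckeAlgebra N 2 ∅)
      - ((a ℓ : ℤ) : CuspForm.heckeAlgebra N 2 ∅) ∈ congrIdeal f₀ := by
  rw [mem_congrIdeal_iff]
  intro n
  have key := heig.2 ℓ hℓ n
  simp only [if_neg hℓN] at key
  obtain ⟨k1, hk1⟩ := hcong (ℓ * n)
  obtain ⟨k2, hk2⟩ : (3 : ℤ) ∣ (if ℓ ∣ n then af (n / ℓ) else 0) - (if ℓ ∣ n then a (n / ℓ) else 0) := by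
    split_ifs
    · exact hcong _
    · simp
  obtain ⟨k3, hk3⟩ := three_dvd_sub_chi ℓ
  obtain ⟨k4, hk4⟩ := hcong n
  have hval : qCoeff ((((CuspForm.heckeAlgebra.T hℓ hℓN (Set.notMem_empty ℓ) :
      CuspForm.heckeAlgebra N 2 ∅) - ((a ℓ : ℤ) : CuspForm.heckeAlgebra N 2 ∅) :
      CuspForm.heckeAlgebra N 2 ∅)).1 f₀) n =
      ((af (ℓ * n) + (ℓ : ℤ) * (if ℓ ∣ n then af (n / ℓ) else 0) - a ℓ * af n : ℤ) : ℂ) := by
    have : (((CuspForm.heckeAlgebra.T hℓ hℓN (Set.notMem_empty ℓ) :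
      CuspForm.heckeAlgebra N 2 ∅) - ((a ℓ : ℤ) : CuspForm.heckeAlgebra N 2 ∅) :
      CuspForm.heckeAlgebra N 2 ∅)).1 f₀ = CuspForm.heckeTLin 2 hℓ hℓN f₀ - (a ℓ) • f₀ := rfl
    rw [this, ← qCoeffLin_apply, map_sub, map_zsmul, qCoeffLin_apply, qCoeffLin_apply,
      qCoeff_heckeTLin]
    simp only [← haf]
    split_ifs
    · push_cast; simp
    · push_cast; simp
  rw [hval]
  refine ⟨k1 + k3 * (if ℓ ∣ n then af (n / ℓ) else 0) + chiNegThree ℓ * k2 - a ℓ * k4, ?_⟩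
  suffices hs : af (ℓ * n) + (ℓ : ℤ) * (if ℓ ∣ n then af (n / ℓ) else 0) - a ℓ * af n =
      3 * (k1 + k3 * (if ℓ ∣ n then af (n / ℓ) else 0) + chiNegThree ℓ * k2 - a ℓ * k4) by
    rw [hs]; push_cast; ring
  linear_combination hk1 + (if ℓ ∣ n then af (n / ℓ) else 0) * hk3 + chiNegThree ℓ * hk2
    - a ℓ * hk4 + key

theorem U_sub_mem_congrIdeal {ℓ : ℕ} (hℓ : ℓ.Prime) (hℓN : ℓ ∣ N) :
    (CuspForm.heckeAlgebra.U hℓ hℓN (Set.notMem_empty ℓ) : CuspForm.heckeAlgebra N 2 ∅)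
      - ((a ℓ : ℤ) : CuspForm.heckeAlgebra N 2 ∅) ∈ congrIdeal f₀ := by
  rw [mem_congrIdeal_iff]
  intro n
  have key := heig.2 ℓ hℓ n
  simp only [if_pos hℓN, zero_mul, add_zero] at key
  obtain ⟨k1, hk1⟩ := hcong (ℓ * n)
  obtain ⟨k4, hk4⟩ := hcong n
  have hval : qCoeff ((((CuspForm.heckeAlgebra.U hℓ hℓN (Set.notMem_empty ℓ) :
      CuspForm.heckeAlgebra N 2 ∅) - ((a ℓ : ℤ) : CuspForm.heckeAlgebra N 2 ∅) :
      CuspForm.heckeAlgebra N 2 ∅)).1 f₀) n =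
      ((af (ℓ * n) - a ℓ * af n : ℤ) : ℂ) := by
    have : (((CuspForm.heckeAlgebra.U hℓ hℓN (Set.notMem_empty ℓ) :
      CuspForm.heckeAlgebra N 2 ∅) - ((a ℓ : ℤ) : CuspForm.heckeAlgebra N 2 ∅) :
      CuspForm.heckeAlgebra N 2 ∅)).1 f₀ = CuspForm.heckeULin 2 hℓN f₀ - (a ℓ) • f₀ := rfl
    rw [this, ← qCoeffLin_apply, map_sub, map_zsmul, qCoeffLin_apply, qCoeffLin_apply,
      qCoeff_heckeULin hℓ]
    simp only [← haf]
    push_cast; simp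
  rw [hval]
  refine ⟨k1 - a ℓ * k4, ?_⟩
  suffices hs : af (ℓ * n) - a ℓ * af n = 3 * (k1 - a ℓ * k4) by
    rw [hs]; push_cast; ring
  linear_combination hk1 - a ℓ * hk4 + key

theorem exists_int_sub_mem_congrIdeal (t : CuspForm.heckeAlgebra N 2 ∅) :
    ∃ m : ℤ, t - (m : CuspForm.heckeAlgebra N 2 ∅) ∈ congrIdeal f₀ := by
  obtain ⟨x, hx⟩ := t
  unfold CuspForm.heckeAlgebra at hx
  induction hx using Algebra.adjoin_induction with
  | mem x hx =>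
    rcases hx with ⟨ℓ, hℓ, hℓN, -, rfl⟩ | ⟨q, hqN, hq, -, rfl⟩
    · exact ⟨a ℓ, T_sub_mem_congrIdeal heig haf hcong hℓ hℓN⟩
    · exact ⟨a q, U_sub_mem_congrIdeal heig haf hcong hq hqN⟩
  | algebraMap r =>
    refine ⟨r, ?_⟩
    convert (congrIdeal f₀).zero_mem
    rw [sub_eq_zero]
    apply Subtype.ext
    simp
  | add x y hx hy ihx ihy =>
    obtain ⟨m, hm⟩ := ihx
    obtain ⟨m', hm'⟩ := ihy
    refine ⟨m + m', ?_⟩
    convert (congrIdeal f₀).add_mem hm hm' using 1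
    push_cast
    have : (⟨x + y, add_mem hx hy⟩ : CuspForm.heckeAlgebra N 2 ∅) = ⟨x, hx⟩ + ⟨y, hy⟩ := rfl
    rw [this]; ring
  | mul x y hx hy ihx ihy =>
    obtain ⟨m, hm⟩ := ihx
    obtain ⟨m', hm'⟩ := ihy
    refine ⟨m * m', ?_⟩
    convert (congrIdeal f₀).add_mem ((congrIdeal f₀).mul_mem_right ⟨y, hy⟩ hm)
      ((congrIdeal f₀).mul_mem_left (m : CuspForm.heckeAlgebra N 2 ∅) hm') using 1
    push_cast
    have : (⟨x * y, mul_mem hx hy⟩ : CuspForm.heckeAlgebra N 2 ∅) = ⟨x, hx⟩ * ⟨y, hy⟩ := rfl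
    rw [this]; ring

omit heig hcong in
theorem three_mem_congrIdeal : (3 : CuspForm.heckeAlgebra N 2 ∅) ∈ congrIdeal f₀ := by
  refine ⟨f₀, (mem_intLattice_iff f₀).mpr fun n => ⟨af n, (haf n).symm⟩, ?_⟩
  rfl

theorem one_notMem_congrIdeal : (1 : CuspForm.heckeAlgebra N 2 ∅) ∉ congrIdeal f₀ := by
  intro h
  obtain ⟨m, hm⟩ := (mem_congrIdeal_iff f₀ 1).mp h 1
  have h1 : ((1 : CuspForm.heckeAlgebra N 2 ∅)).1 f₀ = f₀ := rfl
  rw [h1, ← haf] at hm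
  have hm' : af 1 = 3 * m := by exact_mod_cast hm
  obtain ⟨k, hk⟩ := hcong 1
  rw [heig.1] at hk
  omega

theorem congrIdeal_isMaximal : (congrIdeal f₀).IsMaximal := by
  rw [Ideal.isMaximal_iff]
  refine ⟨one_notMem_congrIdeal heig haf hcong, ?_⟩
  intro J x hJ hx hxJ
  obtain ⟨m, hm⟩ := exists_int_sub_mem_congrIdeal heig haf hcong x
  have h3 : (3 : CuspForm.heckeAlgebra N 2 ∅) ∈ congrIdeal f₀ :=
    three_mem_congrIdeal haf
  have hmJ : (m : CuspForm.heckeAlgebra N 2 ∅) ∈ J := by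
    have := J.sub_mem hxJ (hJ hm)
    simpa using this
  have hm3 : ¬ (3 : ℤ) ∣ m := by
    rintro ⟨k, rfl⟩
    apply hx
    have h4 : ((3 * k : ℤ) : CuspForm.heckeAlgebra N 2 ∅) ∈ congrIdeal f₀ := by
      push_cast
      exact (congrIdeal f₀).mul_mem_right _ h3
    have := (congrIdeal f₀).add_mem hm h4
    simpa using this
  have hcop : IsCoprime m 3 := by
    have : IsCoprime (3 : ℤ) m :=
      (Prime.coprime_iff_not_dvd (Int.prime_iff_natAbs_prime.mpr (by norm_num))).mpr hm3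
    exact this.symm
  obtain ⟨u, v, huv⟩ := hcop
  have : (1 : CuspForm.heckeAlgebra N 2 ∅) =
      (u : CuspForm.heckeAlgebra N 2 ∅) * (m : CuspForm.heckeAlgebra N 2 ∅)
        + (v : CuspForm.heckeAlgebra N 2 ∅) * 3 := by
    have := congrArg (Int.cast : ℤ → CuspForm.heckeAlgebra N 2 ∅) huv
    push_cast at this
    exact this.symm
  rw [this]
  exact J.add_mem (J.mul_mem_left _ hmJ) (J.mul_mem_left _ (hJ h3))

end

end Fermat.Agent.S49
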